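/-
S41 / C5 [EIS-STRICT], finite-group half (helper32).

`Gbar hNM` = the "Borel mod `N`" subgroup `{c ≡ 0 mod N}` of `SL(2, ℤ/M)` (`N ∣ M`), its generators
`uB b`, `lC c`, `dA a`, conjugation `conjD v` by `diag(1, v)`, and the key identity:
for every homomorphism `φ` of `Gbar` into an `𝔽_p`-vector space (`p ∣ M`, `p` odd, `v = ℓ`):
`(ℓ + 1) • (φ (conjD v g) - φ g) = 0`.
-/
import Mathlib

set_option autoImplicit false
set_option linter.unusedSimpArgs false
set_option linter.deprecated false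

open Matrix

namespace Fermat.Agent.S41.EisStrict32

/-- `SL(2, ℤ/M)` -/
abbrev SLM (M : ℕ) := Matrix.SpecialLinearGroup (Fin 2) (ZMod M)

variable {M : ℕ}

/-- upper unipotent -/
def uB (b : ZMod M) : SLM M := ⟨!![1, b; 0, 1], by simp [Matrix.det_fin_two]⟩

/-- lower unipotent -/
def lC (c : ZMod M) : SLM M := ⟨!![1, 0; c, 1], by simp [Matrix.det_fin_two]⟩

/-- diagonal -/
def dA (a : (ZMod M)ˣ) : SLM M :=
  ⟨!![(a : ZMod M), 0; 0, ((a⁻¹ : (ZMod M)ˣ) : ZMod M)], by simp [Matrix.det_fin_two]⟩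

@[simp] lemma uB_00 (b : ZMod M) : (uB b) 0 0 = 1 := rfl
@[simp] lemma uB_01 (b : ZMod M) : (uB b) 0 1 = b := rfl
@[simp] lemma uB_10 (b : ZMod M) : (uB b) 1 0 = 0 := rfl
@[simp] lemma uB_11 (b : ZMod M) : (uB b) 1 1 = 1 := rfl
@[simp] lemma lC_00 (c : ZMod M) : (lC c) 0 0 = 1 := rfl
@[simp] lemma lC_01 (c : ZMod M) : (lC c) 0 1 = 0 := rfl
@[simp] lemma lC_10 (c : ZMod M) : (lC c) 1 0 = c := rfl
@[simp] lemma lC_11 (c : ZMod M) : (lC c) 1 1 = 1 := rfl
@[simp] lemma dA_00 (a : (ZMod M)ˣ) : (dA a) 0 0 = (a : ZMod M) := rfl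
@[simp] lemma dA_01 (a : (ZMod M)ˣ) : (dA a) 0 1 = 0 := rfl
@[simp] lemma dA_10 (a : (ZMod M)ˣ) : (dA a) 1 0 = 0 := rfl
@[simp] lemma dA_11 (a : (ZMod M)ˣ) : (dA a) 1 1 = ((a⁻¹ : (ZMod M)ˣ) : ZMod M) := rfl

/-- extensionality by the four entries -/
lemma ext4 {g h : SLM M} (h00 : g 0 0 = h 0 0) (h01 : g 0 1 = h 0 1) (h10 : g 1 0 = h 1 0)
    (h11 : g 1 1 = h 1 1) : g = h := by
  apply Matrix.SpecialLinearGroup.ext
  intro i j
  fin_cases i <;> fin_cases j <;> assumption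

lemma mul_00 (g h : SLM M) : (g * h) 0 0 = g 0 0 * h 0 0 + g 0 1 * h 1 0 := by
  simp [Matrix.SpecialLinearGroup.coe_mul, Matrix.mul_apply, Fin.sum_univ_two]
lemma mul_01 (g h : SLM M) : (g * h) 0 1 = g 0 0 * h 0 1 + g 0 1 * h 1 1 := by
  simp [Matrix.SpecialLinearGroup.coe_mul, Matrix.mul_apply, Fin.sum_univ_two]
lemma mul_10 (g h : SLM M) : (g * h) 1 0 = g 1 0 * h 0 0 + g 1 1 * h 1 0 := by
  simp [Matrix.SpecialLinearGroup.coe_mul, Matrix.mul_apply, Fin.sum_univ_two]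
lemma mul_11 (g h : SLM M) : (g * h) 1 1 = g 1 0 * h 0 1 + g 1 1 * h 1 1 := by
  simp [Matrix.SpecialLinearGroup.coe_mul, Matrix.mul_apply, Fin.sum_univ_two]

lemma inv_00 (g : SLM M) : (g⁻¹) 0 0 = g 1 1 := by
  simp [Matrix.SpecialLinearGroup.coe_inv, Matrix.adjugate_fin_two]
lemma inv_01 (g : SLM M) : (g⁻¹) 0 1 = - g 0 1 := by
  simp [Matrix.SpecialLinearGroup.coe_inv, Matrix.adjugate_fin_two]
lemma inv_10 (g : SLM M) : (g⁻¹) 1 0 = - g 1 0 := by
  simp [Matrix.SpecialLinearGroup.coe_inv, Matrix.adjugate_fin_two]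
lemma inv_11 (g : SLM M) : (g⁻¹) 1 1 = g 0 0 := by
  simp [Matrix.SpecialLinearGroup.coe_inv, Matrix.adjugate_fin_two]

lemma det_eq (g : SLM M) : g 0 0 * g 1 1 - g 0 1 * g 1 0 = 1 := by
  have := g.det_coe
  rwa [Matrix.det_fin_two] at this

lemma uB_add (b b' : ZMod M) : uB (b + b') = uB b * uB b' := by
  apply ext4 <;> simp [mul_00, mul_01, mul_10, mul_11, add_comm]

lemma lC_add (c c' : ZMod M) : lC (c + c') = lC c * lC c' := by
  apply ext4 <;> simp [mul_00, mul_01, mul_10, mul_11]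


/-! ### the subgroup `Gbar` -/

variable {N : ℕ}

/-- `{c ≡ 0 mod N}` inside `SL(2, ℤ/M)`, for `N ∣ M` -/
def Gbar (hNM : N ∣ M) : Subgroup (SLM M) where
  carrier := {g | ZMod.castHom hNM (ZMod N) (g 1 0) = 0}
  one_mem' := by simp
  mul_mem' := by
    intro g h hg hh
    simp only [Set.mem_setOf_eq] at hg hh ⊢
    rw [mul_10, map_add, map_mul, map_mul, hg, hh]
    simp
  inv_mem' := by
    intro g hg
    simp only [Set.mem_setOf_eq] at hg ⊢
    rw [inv_10, map_neg, hg, neg_zero]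

lemma mem_Gbar (hNM : N ∣ M) {g : SLM M} :
    g ∈ Gbar hNM ↔ ZMod.castHom hNM (ZMod N) (g 1 0) = 0 := Iff.rfl

lemma uB_mem (hNM : N ∣ M) (b : ZMod M) : uB b ∈ Gbar hNM := by
  simp [mem_Gbar]

lemma dA_mem (hNM : N ∣ M) (a : (ZMod M)ˣ) : dA a ∈ Gbar hNM := by
  simp [mem_Gbar]

lemma lC_mem (hNM : N ∣ M) {c : ZMod M} (hc : ZMod.castHom hNM (ZMod N) c = 0) :
    lC c ∈ Gbar hNM := by
  simpa [mem_Gbar] using hc

/-- conjugation by `diag(1, v)` -/
def conjFun (v : (ZMod M)ˣ) (g : SLM M) : SLM M :=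
  ⟨!![g 0 0, g 0 1 * ((v⁻¹ : (ZMod M)ˣ) : ZMod M); (v : ZMod M) * g 1 0, g 1 1], by
    rw [Matrix.det_fin_two_of]
    have h := det_eq g
    have hv : (v : ZMod M) * ((v⁻¹ : (ZMod M)ˣ) : ZMod M) = 1 := by simp
    linear_combination h - g 0 1 * g 1 0 * hv⟩

@[simp] lemma conjFun_00 (v : (ZMod M)ˣ) (g : SLM M) : (conjFun v g) 0 0 = g 0 0 := rfl
@[simp] lemma conjFun_01 (v : (ZMod M)ˣ) (g : SLM M) :
    (conjFun v g) 0 1 = g 0 1 * ((v⁻¹ : (ZMod M)ˣ) : ZMod M) := rfl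
@[simp] lemma conjFun_10 (v : (ZMod M)ˣ) (g : SLM M) :
    (conjFun v g) 1 0 = (v : ZMod M) * g 1 0 := rfl
@[simp] lemma conjFun_11 (v : (ZMod M)ˣ) (g : SLM M) : (conjFun v g) 1 1 = g 1 1 := rfl

lemma conjFun_mul (v : (ZMod M)ˣ) (g h : SLM M) :
    conjFun v (g * h) = conjFun v g * conjFun v h := by
  have hv : ((v⁻¹ : (ZMod M)ˣ) : ZMod M) * (v : ZMod M) = 1 := by simp
  apply ext4
  · simp only [conjFun_00, mul_00, conjFun_01, conjFun_10]
    linear_combination (- g 0 1 * h 1 0) * hv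
  · simp only [conjFun_01, mul_01, conjFun_00, conjFun_11]
    ring
  · simp only [conjFun_10, mul_10, conjFun_00, conjFun_11]
    ring
  · simp only [conjFun_11, mul_11, conjFun_10, conjFun_01]
    linear_combination (- g 1 0 * h 0 1) * hv

/-- conjugation by `diag(1, v)` as a homomorphism -/
def conjD (v : (ZMod M)ˣ) : SLM M →* SLM M :=
  MonoidHom.mk' (conjFun v) (conjFun_mul v)

@[simp] lemma conjD_apply (v : (ZMod M)ˣ) (g : SLM M) : conjD v g = conjFun v g := rfl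

lemma conjD_mem (hNM : N ∣ M) (v : (ZMod M)ˣ) {g : SLM M} (hg : g ∈ Gbar hNM) :
    conjD v g ∈ Gbar hNM := by
  rw [mem_Gbar] at hg ⊢
  rw [conjD_apply, conjFun_10, map_mul, hg, mul_zero]

lemma conjD_uB (v : (ZMod M)ˣ) (b : ZMod M) :
    conjD v (uB b) = uB (((v⁻¹ : (ZMod M)ˣ) : ZMod M) * b) := by
  apply ext4 <;> simp [mul_comm]

lemma conjD_lC (v : (ZMod M)ˣ) (c : ZMod M) : conjD v (lC c) = lC ((v : ZMod M) * c) := by
  apply ext4 <;> simp

lemma conjD_dA (v a : (ZMod M)ˣ) : conjD v (dA a) = dA a := by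
  apply ext4 <;> simp

/-- `d_v u_b d_v⁻¹ = u_{v² b}` -/
lemma dA_conj_uB (v : (ZMod M)ˣ) (b : ZMod M) :
    dA v * uB b * (dA v)⁻¹ = uB ((v : ZMod M) * (v : ZMod M) * b) := by
  have hv : (v : ZMod M) * ((v⁻¹ : (ZMod M)ˣ) : ZMod M) = 1 := by simp
  apply ext4
  · simp only [mul_00, mul_01, inv_00, inv_10, dA_00, dA_01, dA_10, dA_11, uB_00, uB_01, uB_10,
      uB_11]
    linear_combination hv
  · simp only [mul_00, mul_01, inv_01, inv_11, dA_00, dA_01, dA_10, dA_11, uB_00, uB_01, uB_10,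
      uB_11]
    ring
  · simp only [mul_10, mul_11, inv_00, inv_10, dA_00, dA_01, dA_10, dA_11, uB_00, uB_01, uB_10,
      uB_11]
    ring
  · simp only [mul_10, mul_11, inv_01, inv_11, dA_00, dA_01, dA_10, dA_11, uB_00, uB_01, uB_10,
      uB_11]
    linear_combination hv

/-- `d_v⁻¹ l_c d_v = l_{v² c}` -/
lemma dA_conj_lC (v : (ZMod M)ˣ) (c : ZMod M) :
    (dA v)⁻¹ * lC c * dA v = lC ((v : ZMod M) * (v : ZMod M) * c) := by
  have hv : (v : ZMod M) * ((v⁻¹ : (ZMod M)ˣ) : ZMod M) = 1 := by simp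
  apply ext4
  · simp only [mul_00, mul_01, inv_00, inv_01, dA_00, dA_01, dA_10, dA_11, lC_00, lC_01, lC_10,
      lC_11]
    linear_combination hv
  · simp only [mul_00, mul_01, inv_00, inv_01, dA_00, dA_01, dA_10, dA_11, lC_00, lC_01, lC_10,
      lC_11]
    ring
  · simp only [mul_10, mul_11, mul_00, mul_01, inv_10, inv_11, inv_00, inv_01, dA_00, dA_01,
      dA_10, dA_11, lC_00, lC_01, lC_10, lC_11]
    ring
  · simp only [mul_10, mul_11, mul_00, mul_01, inv_10, inv_11, inv_00, inv_01, dA_00, dA_01,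
      dA_10, dA_11, lC_00, lC_01, lC_10, lC_11]
    linear_combination hv


/-! ### making the upper-left entry a unit -/

/-- if `a, c` generate the unit ideal of `ℤ/M`, some `a + t c` is a unit -/
theorem exists_unit_add_mul [NeZero M] (a c : ZMod M) (h : ∃ x y : ZMod M, x * a + y * c = 1) :
    ∃ t : ZMod M, IsUnit (a + t * c) := by
  classical
  obtain ⟨x, y, hxy⟩ := h
  set a₀ := a.val with ha₀
  set c₀ := c.val with hc₀
  have hac : ∀ r : ℕ, r.Prime → r ∣ M → r ∣ a₀ → ¬ r ∣ c₀ := by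
    intro r hr hrM hra hrc
    have h1 : ZMod.castHom hrM (ZMod r) a = 0 := by
      rw [← ZMod.natCast_zmod_val a, map_natCast, ZMod.natCast_eq_zero_iff]
      exact hra
    have h2 : ZMod.castHom hrM (ZMod r) c = 0 := by
      rw [← ZMod.natCast_zmod_val c, map_natCast, ZMod.natCast_eq_zero_iff]
      exact hrc
    have h3 := congrArg (ZMod.castHom hrM (ZMod r)) hxy
    rw [map_add, map_mul, map_mul, h1, h2, mul_zero, mul_zero, add_zero, map_one] at h3
    have : Fact r.Prime := ⟨hr⟩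
    exact zero_ne_one h3
  set t₀ : ℕ := ∏ r ∈ M.primeFactors.filter (fun r => ¬ r ∣ a₀), r with ht₀
  refine ⟨(t₀ : ZMod M), ?_⟩
  have hcop : Nat.Coprime (a₀ + t₀ * c₀) M := by
    apply Nat.Coprime.symm
    apply Nat.coprime_of_dvd
    intro r hr hrM hdvd
    by_cases hra : r ∣ a₀
    · have hrc := hac r hr hrM hra
      have hrt : ¬ r ∣ t₀ := by
        intro hrt
        rw [ht₀, Prime.dvd_finset_prod_iff hr.prime] at hrt
        obtain ⟨r', hr', hrr'⟩ := hrt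
        rw [Finset.mem_filter, Nat.mem_primeFactors] at hr'
        have : r = r' := (Nat.prime_dvd_prime_iff_eq hr hr'.1.1).1 hrr'
        exact hr'.2 (this ▸ hra)
      have : r ∣ t₀ * c₀ := (Nat.dvd_add_right hra).1 hdvd
      rcases (Nat.Prime.dvd_mul hr).1 this with h | h
      · exact hrt h
      · exact hrc h
    · have hrt : r ∣ t₀ := by
        rw [ht₀]
        apply Finset.dvd_prod_of_mem
        rw [Finset.mem_filter, Nat.mem_primeFactors]
        exact ⟨⟨hr, hrM, NeZero.ne M⟩, hra⟩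
      have : r ∣ a₀ := (Nat.dvd_add_left (Dvd.dvd.mul_right hrt c₀)).1 hdvd
      exact hra this
  have := (ZMod.isUnit_iff_coprime (a₀ + t₀ * c₀) M).2 hcop
  rwa [Nat.cast_add, Nat.cast_mul, ha₀, hc₀, ZMod.natCast_zmod_val, ZMod.natCast_zmod_val] at this

/-- **induction principle for `Gbar`**: every element is a product `u · l · d · u`. -/
theorem Gbar_induction [NeZero M] (hNM : N ∣ M) {P : SLM M → Prop}
    (hmul : ∀ x y, P x → P y → P (x * y))
    (hu : ∀ b, P (uB b))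
    (hl : ∀ c, ZMod.castHom hNM (ZMod N) c = 0 → P (lC c))
    (hd : ∀ a, P (dA a)) : ∀ g ∈ Gbar hNM, P g := by
  intro g hg
  have hdet := det_eq g
  obtain ⟨t, ht⟩ := exists_unit_add_mul (g 0 0) (g 1 0) ⟨g 1 1, - g 0 1, by linear_combination hdet⟩
  set a' : (ZMod M)ˣ := ht.unit with ha'
  have ha'v : (a' : ZMod M) = g 0 0 + t * g 1 0 := ht.unit_spec
  set ai : ZMod M := ((a'⁻¹ : (ZMod M)ˣ) : ZMod M) with hai
  have h1 : (a' : ZMod M) * ai = 1 := by simp [hai]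
  have hdec : g = uB (-t) * (lC (g 1 0 * ai) * dA a' * uB ((g 0 1 + t * g 1 1) * ai)) := by
    apply ext4
    · simp only [mul_00, mul_01, mul_10, mul_11, uB_00, uB_01, uB_10, uB_11, lC_00, lC_01, lC_10,
        lC_11, dA_00, dA_01, dA_10, dA_11]
      rw [← hai]
      linear_combination (-1 : ZMod M) * ha'v + (t * g 1 0) * h1
    · simp only [mul_00, mul_01, mul_10, mul_11, uB_00, uB_01, uB_10, uB_11, lC_00, lC_01, lC_10,
        lC_11, dA_00, dA_01, dA_10, dA_11]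
      rw [← hai]
      linear_combination
        (-(g 0 1 + t * g 1 1) + t * g 1 0 * (g 0 1 + t * g 1 1) * ai + t * g 1 1) * h1
          + (-t * ai * g 1 1) * ha'v + (-t * ai) * hdet
    · simp only [mul_00, mul_01, mul_10, mul_11, uB_00, uB_01, uB_10, uB_11, lC_00, lC_01, lC_10,
        lC_11, dA_00, dA_01, dA_10, dA_11]
      rw [← hai]
      linear_combination (- g 1 0) * h1
    · simp only [mul_00, mul_01, mul_10, mul_11, uB_00, uB_01, uB_10, uB_11, lC_00, lC_01, lC_10,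
        lC_11, dA_00, dA_01, dA_10, dA_11]
      rw [← hai]
      linear_combination
        (- g 1 0 * (g 0 1 + t * g 1 1) * ai - g 1 1) * h1 + (ai * g 1 1) * ha'v + ai * hdet
  rw [hdec]
  refine hmul _ _ (hu _) (hmul _ _ (hmul _ _ (hl _ ?_) (hd _)) (hu _))
  rw [map_mul, (mem_Gbar hNM).1 hg, zero_mul]

end Fermat.Agent.S41.EisStrict32
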