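/-
S41 / C5 [EIS-STRICT], finite-group half (helper32): the key identity
`(ℓ + 1) • (φ (conjD v g) - φ g) = 0` for homomorphisms `φ : Gbar → A`, `A` an `𝔽_p`-vector space,
`p ∣ M`, `v = ℓ` a unit of `ℤ/M` (helper76 #2834 steps (3)(4), refereed #2855/#2864).
-/
import Fermat.Agent.S41.EisStrict32.Borel

set_option autoImplicit false
set_option linter.unusedSimpArgs false
set_option linter.deprecated false
set_option linter.unusedSectionVars false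

open Matrix

namespace Fermat.Agent.S41.EisStrict32

variable {M N p : ℕ}

/-- additive homomorphisms from a `ℤ/M`-module to an `𝔽_p`-vector space (`p ∣ M`) are semilinear
along the reduction `ℤ/M → 𝔽_p`. -/
theorem map_zmod_smul [NeZero M] (hpM : p ∣ M) {K A : Type*} [AddCommGroup K] [Module (ZMod M) K]
    [AddCommGroup A] [Module (ZMod p) A] (χ : K →+ A) (z : ZMod M) (k : K) :
    χ (z • k) = (ZMod.castHom hpM (ZMod p) z) • χ k := by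
  have hz : z = ((z.val : ℕ) : ZMod M) := (ZMod.natCast_zmod_val z).symm
  have h1 : z • k = z.val • k := by
    conv_lhs => rw [hz]
    exact Nat.cast_smul_eq_nsmul (ZMod M) z.val k
  have h2 : ZMod.castHom hpM (ZMod p) z = ((z.val : ℕ) : ZMod p) := by
    conv_lhs => rw [hz]
    exact map_natCast _ _
  rw [h1, h2, map_nsmul, Nat.cast_smul_eq_nsmul]

variable [NeZero M] (hNM : N ∣ M)

/-- `conjD v` restricted to `Gbar` -/
def conjD' (v : (ZMod M)ˣ) : ↥(Gbar hNM) →* ↥(Gbar hNM) :=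
  MonoidHom.codRestrict ((conjD v).comp (Gbar hNM).subtype) (Gbar hNM)
    (fun g => conjD_mem hNM v g.2)

@[simp] lemma coe_conjD' (v : (ZMod M)ˣ) (g : ↥(Gbar hNM)) :
    ((conjD' hNM v g : ↥(Gbar hNM)) : SLM M) = conjD v (g : SLM M) := rfl

/-- the kernel of `ℤ/M → ℤ/N` -/
abbrev KN : Ideal (ZMod M) := RingHom.ker (ZMod.castHom hNM (ZMod N))

section Main

variable {hNM} [Fact p.Prime] (hpM : p ∣ M) {A : Type*} [AddCommGroup A] [Module (ZMod p) A]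
  (φ : ↥(Gbar hNM) →* Multiplicative A)

/-- `φ` in additive notation -/
def Φ (g : ↥(Gbar hNM)) : A := Multiplicative.toAdd (φ g)

lemma Φ_mul (x y : ↥(Gbar hNM)) : Φ φ (x * y) = Φ φ x + Φ φ y := by
  simp [Φ]

lemma Φ_inv (x : ↥(Gbar hNM)) : Φ φ x⁻¹ = - Φ φ x := by
  simp [Φ]

lemma Φ_conj (x y : ↥(Gbar hNM)) : Φ φ (x * y * x⁻¹) = Φ φ y := by
  rw [Φ_mul, Φ_mul, Φ_inv]; abel

lemma Φ_conj' (x y : ↥(Gbar hNM)) : Φ φ (x⁻¹ * y * x) = Φ φ y := by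
  rw [Φ_mul, Φ_mul, Φ_inv]; abel

/-- `b ↦ φ (u_b)` -/
def χu : ZMod M →+ A where
  toFun b := Φ φ ⟨uB b, uB_mem hNM b⟩
  map_zero' := by
    have h : (⟨uB (0 : ZMod M), uB_mem hNM 0⟩ : ↥(Gbar hNM)) = 1 := by
      apply Subtype.ext
      apply ext4 <;> simp
    rw [h]; simp [Φ]
  map_add' b b' := by
    rw [← Φ_mul]
    congr 1
    apply Subtype.ext
    exact uB_add b b'

/-- `c ↦ φ (l_c)` on `c ≡ 0 mod N` -/
def χl : ↥(KN hNM) →+ A where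
  toFun c := Φ φ ⟨lC (c : ZMod M), lC_mem hNM (RingHom.mem_ker.1 c.2)⟩
  map_zero' := by
    have h : (⟨lC ((0 : ↥(KN hNM)) : ZMod M), lC_mem hNM (RingHom.mem_ker.1 (0 : ↥(KN hNM)).2)⟩ :
        ↥(Gbar hNM)) = 1 := by
      apply Subtype.ext
      apply ext4 <;> simp
    rw [h]; simp [Φ]
  map_add' c c' := by
    rw [← Φ_mul]
    congr 1
    apply Subtype.ext
    exact lC_add (c : ZMod M) (c' : ZMod M)

variable (v : (ZMod M)ˣ) (ℓ : ℕ) (hv : (v : ZMod M) = (ℓ : ZMod M))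

include hv in
lemma cast_v : ZMod.castHom hpM (ZMod p) (v : ZMod M) = (ℓ : ZMod p) := by
  rw [hv, map_natCast]

include hv in
lemma ell_mul_cast_inv :
    (ℓ : ZMod p) * ZMod.castHom hpM (ZMod p) ((v⁻¹ : (ZMod M)ˣ) : ZMod M) = 1 := by
  rw [← cast_v hpM v ℓ hv, ← map_mul, Units.mul_inv, map_one]

include hv in
lemma cast_v_inv :
    ZMod.castHom hpM (ZMod p) ((v⁻¹ : (ZMod M)ˣ) : ZMod M) = ((ℓ : ZMod p))⁻¹ :=
  eq_inv_of_mul_eq_one_right (ell_mul_cast_inv hpM v ℓ hv)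

include hpM hv in
lemma ell_ne_zero : (ℓ : ZMod p) ≠ 0 := by
  intro h0
  have h := ell_mul_cast_inv hpM v ℓ hv
  rw [h0, zero_mul] at h
  exact zero_ne_one h

include hpM hv in
/-- `(ℓ² - 1) φ(u_b) = 0` -/
lemma sq_sub_one_smul_u (b : ZMod M) :
    (((ℓ : ZMod p)) * (ℓ : ZMod p) - 1) • χu φ b = 0 := by
  have h1 : χu φ ((v : ZMod M) * (v : ZMod M) * b) = χu φ b := by
    show Φ φ _ = Φ φ _
    rw [← Φ_conj φ ⟨dA v, dA_mem hNM v⟩ ⟨uB b, uB_mem hNM b⟩]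
    congr 1
    apply Subtype.ext
    exact (dA_conj_uB v b).symm
  have h2 := map_zmod_smul hpM (χu φ) ((v : ZMod M) * (v : ZMod M)) b
  rw [smul_eq_mul, h1, map_mul, cast_v hpM v ℓ hv] at h2
  rw [sub_smul, one_smul, ← h2, sub_self]

include hpM hv in
/-- `(ℓ² - 1) φ(l_c) = 0` -/
lemma sq_sub_one_smul_l (c : ↥(KN hNM)) :
    (((ℓ : ZMod p)) * (ℓ : ZMod p) - 1) • χl φ c = 0 := by
  have h1 : χl φ (((v : ZMod M) * (v : ZMod M)) • c) = χl φ c := by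
    show Φ φ _ = Φ φ _
    rw [← Φ_conj' φ ⟨dA v, dA_mem hNM v⟩ ⟨lC (c : ZMod M), lC_mem hNM (RingHom.mem_ker.1 c.2)⟩]
    congr 1
    apply Subtype.ext
    exact (dA_conj_lC v (c : ZMod M)).symm
  have h2 := map_zmod_smul hpM (χl φ) ((v : ZMod M) * (v : ZMod M)) c
  rw [h1, map_mul, cast_v hpM v ℓ hv] at h2
  rw [sub_smul, one_smul, ← h2, sub_self]

include hpM hv in
/-- **[EIS-STRICT], finite-group core**: `(ℓ + 1) • (φ(conj_{diag(1,ℓ)} g) - φ(g)) = 0` for every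
`g ∈ Gbar`. -/
theorem main (g : ↥(Gbar hNM)) :
    ((ℓ : ZMod p) + 1) • (Φ φ (conjD' hNM v g) - Φ φ g) = 0 := by
  have hl0 := ell_ne_zero hpM v ℓ hv
  have key : ∀ x ∈ Gbar hNM, ∃ hx : x ∈ Gbar hNM,
      ((ℓ : ZMod p) + 1) • (Φ φ (conjD' hNM v ⟨x, hx⟩) - Φ φ ⟨x, hx⟩) = 0 := by
    refine Gbar_induction hNM (P := fun x => ∃ hx : x ∈ Gbar hNM,
      ((ℓ : ZMod p) + 1) • (Φ φ (conjD' hNM v ⟨x, hx⟩) - Φ φ ⟨x, hx⟩) = 0) ?_ ?_ ?_ ?_
    · rintro x y ⟨hx, hfx⟩ ⟨hy, hfy⟩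
      refine ⟨(Gbar hNM).mul_mem hx hy, ?_⟩
      have e : (⟨x * y, (Gbar hNM).mul_mem hx hy⟩ : ↥(Gbar hNM)) = ⟨x, hx⟩ * ⟨y, hy⟩ := rfl
      rw [e, map_mul, Φ_mul, Φ_mul, add_sub_add_comm, smul_add, hfx, hfy, add_zero]
    · intro b
      refine ⟨uB_mem hNM b, ?_⟩
      have e1 : conjD' hNM v ⟨uB b, uB_mem hNM b⟩ =
          ⟨uB (((v⁻¹ : (ZMod M)ˣ) : ZMod M) * b), uB_mem hNM _⟩ := by
        apply Subtype.ext
        exact conjD_uB v b
      rw [e1]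
      show ((ℓ : ZMod p) + 1) • (χu φ (((v⁻¹ : (ZMod M)ˣ) : ZMod M) * b) - χu φ b) = 0
      have h2 := map_zmod_smul hpM (χu φ) ((v⁻¹ : (ZMod M)ˣ) : ZMod M) b
      rw [smul_eq_mul, cast_v_inv hpM v ℓ hv] at h2
      rw [h2]
      have h3 := sq_sub_one_smul_u hpM φ v ℓ hv b
      have h4 : ((ℓ : ZMod p) + 1) • (((ℓ : ZMod p))⁻¹ • χu φ b - χu φ b) =
          (-((ℓ : ZMod p))⁻¹) • (((ℓ : ZMod p) * (ℓ : ZMod p) - 1) • χu φ b) := by
        rw [smul_sub, smul_smul, ← sub_smul, smul_smul]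
        congr 1
        field_simp
        ring
      rw [h4, h3, smul_zero]
    · intro c hc
      refine ⟨lC_mem hNM hc, ?_⟩
      have hcK : c ∈ KN hNM := RingHom.mem_ker.2 hc
      have e1 : conjD' hNM v ⟨lC c, lC_mem hNM hc⟩ =
          ⟨lC ((v : ZMod M) * c), lC_mem hNM (by rw [map_mul, hc, mul_zero])⟩ := by
        apply Subtype.ext
        exact conjD_lC v c
      rw [e1]
      show ((ℓ : ZMod p) + 1) • (χl φ ((v : ZMod M) • (⟨c, hcK⟩ : ↥(KN hNM))) - χl φ ⟨c, hcK⟩) = 0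
      have h2 := map_zmod_smul hpM (χl φ) (v : ZMod M) (⟨c, hcK⟩ : ↥(KN hNM))
      rw [cast_v hpM v ℓ hv] at h2
      rw [h2]
      have h3 := sq_sub_one_smul_l hpM φ v ℓ hv ⟨c, hcK⟩
      have h4 : ((ℓ : ZMod p) + 1) • ((ℓ : ZMod p) • χl φ ⟨c, hcK⟩ - χl φ ⟨c, hcK⟩) =
          ((ℓ : ZMod p) * (ℓ : ZMod p) - 1) • χl φ ⟨c, hcK⟩ := by
        rw [smul_sub, smul_smul, ← sub_smul]
        congr 1
        ring
      rw [h4, h3]
    · intro a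
      refine ⟨dA_mem hNM a, ?_⟩
      have e1 : conjD' hNM v ⟨dA a, dA_mem hNM a⟩ = ⟨dA a, dA_mem hNM a⟩ := by
        apply Subtype.ext
        exact conjD_dA v a
      rw [e1, sub_self, smul_zero]
  obtain ⟨_, h⟩ := key g.1 g.2
  exact h

end Main

end Fermat.Agent.S41.EisStrict32
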