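/-
S41 / C5 [EIS-STRICT] (helper32): explicit lifts.  `Γ₀(N) → Gbar ⊂ SL(2, ℤ/M)` is onto (`N ∣ M`),
via the generators of `Gbar` — no strong approximation needed — and homomorphisms of `Γ₀(N)`
killing `Γ₀(N) ∩ Γ(M)` descend to `Gbar`.
-/
import Fermat.Agent.S41.EisStrict32.Main

set_option autoImplicit false
set_option linter.unusedSimpArgs false
set_option linter.deprecated false
set_option linter.unusedSectionVars false

open Matrix CongruenceSubgroup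
open scoped MatrixGroups

namespace Fermat.Agent.S41.EisStrict32

variable {M N : ℕ}

/-- reduction mod `M` -/
def redM (M : ℕ) : SL(2, ℤ) →* SLM M :=
  Matrix.SpecialLinearGroup.map (Int.castRingHom (ZMod M))

@[simp] lemma redM_apply (γ : SL(2, ℤ)) (i j : Fin 2) : redM M γ i j = ((γ i j : ℤ) : ZMod M) :=
  rfl

lemma redM_eq_one_iff (γ : SL(2, ℤ)) : redM M γ = 1 ↔ γ ∈ Gamma M := Iff.rfl

lemma redM_mem_Gbar_iff (hNM : N ∣ M) (γ : SL(2, ℤ)) : redM M γ ∈ Gbar hNM ↔ γ ∈ Gamma0 N := by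
  rw [mem_Gbar, Gamma0_mem, redM_apply, map_intCast]

/-- integer upper unipotent -/
def uZ (b : ℤ) : SL(2, ℤ) := ⟨!![1, b; 0, 1], by simp [Matrix.det_fin_two]⟩

/-- integer lower unipotent -/
def lZ (c : ℤ) : SL(2, ℤ) := ⟨!![1, 0; c, 1], by simp [Matrix.det_fin_two]⟩

lemma uZ_mem (N : ℕ) (b : ℤ) : uZ b ∈ Gamma0 N := by
  rw [Gamma0_mem]
  show (((0 : ℤ) : ℤ) : ZMod N) = 0
  simp

lemma lZ_mem {c : ℤ} (hc : ((c : ℤ) : ZMod N) = 0) : lZ c ∈ Gamma0 N := by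
  rw [Gamma0_mem]
  exact hc

@[simp] lemma uZ_00 (b : ℤ) : (uZ b) 0 0 = 1 := rfl
@[simp] lemma uZ_01 (b : ℤ) : (uZ b) 0 1 = b := rfl
@[simp] lemma uZ_10 (b : ℤ) : (uZ b) 1 0 = 0 := rfl
@[simp] lemma uZ_11 (b : ℤ) : (uZ b) 1 1 = 1 := rfl
@[simp] lemma lZ_00 (c : ℤ) : (lZ c) 0 0 = 1 := rfl
@[simp] lemma lZ_01 (c : ℤ) : (lZ c) 0 1 = 0 := rfl
@[simp] lemma lZ_10 (c : ℤ) : (lZ c) 1 0 = c := rfl
@[simp] lemma lZ_11 (c : ℤ) : (lZ c) 1 1 = 1 := rfl

lemma redM_uZ (b : ℤ) : redM M (uZ b) = uB (b : ZMod M) := by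
  apply ext4 <;> rw [redM_apply] <;> simp

lemma redM_lZ (c : ℤ) : redM M (lZ c) = lC (c : ZMod M) := by
  apply ext4 <;> rw [redM_apply] <;> simp

variable [NeZero M]

/-- **`Γ₀(N) → Gbar` is onto.** -/
theorem redM_Gamma0_surj (hNM : N ∣ M) : ∀ g ∈ Gbar hNM, ∃ γ ∈ Gamma0 N, redM M γ = g := by
  refine Gbar_induction hNM (P := fun g => ∃ γ ∈ Gamma0 N, redM M γ = g) ?_ ?_ ?_ ?_
  · rintro x y ⟨γ, hγ, rfl⟩ ⟨γ', hγ', rfl⟩
    exact ⟨γ * γ', (Gamma0 N).mul_mem hγ hγ', map_mul _ _ _⟩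
  · intro b
    refine ⟨uZ (b.val : ℤ), uZ_mem N _, ?_⟩
    rw [redM_uZ]
    congr 1
    simp
  · intro c hc
    refine ⟨lZ (c.val : ℤ), lZ_mem ?_, ?_⟩
    · have : ((c.val : ℤ) : ZMod N) = ZMod.castHom hNM (ZMod N) ((c.val : ℕ) : ZMod M) := by
        rw [map_natCast]; simp
      rw [this, ZMod.natCast_zmod_val, hc]
    · rw [redM_lZ]
      congr 1
      simp
  · intro a
    -- Bezout for `a.val` and `M²`
    set a₀ : ℤ := ((a : ZMod M).val : ℤ) with ha₀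
    have hcop : IsCoprime a₀ ((M : ℤ) * (M : ℤ)) := by
      have h1 : Nat.Coprime (a : ZMod M).val M := ZMod.val_coe_unit_coprime a
      have h2 : IsCoprime a₀ (M : ℤ) := by
        rw [ha₀]
        exact Nat.isCoprime_iff_coprime.2 h1
      exact h2.mul_right h2
    obtain ⟨x, y, hxy⟩ := hcop
    -- x * a₀ + y * M² = 1
    have hdet : a₀ * x - (M : ℤ) * (-(M : ℤ) * y) = 1 := by linear_combination hxy
    set γ : SL(2, ℤ) := ⟨!![a₀, (M : ℤ); -(M : ℤ) * y, x], by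
      rw [Matrix.det_fin_two_of]; exact hdet⟩ with hγ
    have hMN : (((M : ℕ) : ℤ) : ZMod N) = 0 := by
      rw [Int.cast_natCast, ZMod.natCast_eq_zero_iff]; exact hNM
    have e00 : γ 0 0 = a₀ := rfl
    have e01 : γ 0 1 = (M : ℤ) := rfl
    have e10 : γ 1 0 = -(M : ℤ) * y := rfl
    have e11 : γ 1 1 = x := rfl
    refine ⟨γ, ?_, ?_⟩
    · rw [Gamma0_mem, e10, Int.cast_mul, Int.cast_neg, hMN, neg_zero, zero_mul]
    · have hx : ((x : ℤ) : ZMod M) = ((a⁻¹ : (ZMod M)ˣ) : ZMod M) := by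
        have h1 : ((x : ℤ) : ZMod M) * (a : ZMod M) = 1 := by
          have := congrArg (fun z : ℤ => (z : ZMod M)) hxy
          simp only [Int.cast_add, Int.cast_mul, Int.cast_natCast, ZMod.natCast_self, mul_zero,
            add_zero, Int.cast_one] at this
          rw [ha₀] at this
          simpa using this
        calc ((x : ℤ) : ZMod M) = ((x : ℤ) : ZMod M) * ((a : ZMod M) * ((a⁻¹ : (ZMod M)ˣ) : ZMod M)) := by
              simp
          _ = ((a⁻¹ : (ZMod M)ˣ) : ZMod M) := by rw [← mul_assoc, h1, one_mul]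
      apply ext4
      · rw [redM_apply, e00, dA_00, ha₀]
        simp
      · rw [redM_apply, e01, dA_01]
        simp
      · rw [redM_apply, e10, dA_10]
        simp
      · rw [redM_apply, e11, dA_11, hx]

/-- `Γ₀(N) → Gbar` as a homomorphism -/
def redG (hNM : N ∣ M) : ↥(Gamma0 N) →* ↥(Gbar hNM) :=
  MonoidHom.codRestrict ((redM M).comp (Gamma0 N).subtype) (Gbar hNM)
    (fun γ => (redM_mem_Gbar_iff hNM γ.1).2 γ.2)

@[simp] lemma coe_redG (hNM : N ∣ M) (γ : ↥(Gamma0 N)) :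
    ((redG hNM γ : ↥(Gbar hNM)) : SLM M) = redM M (γ : SL(2, ℤ)) := rfl

lemma redG_surjective (hNM : N ∣ M) : Function.Surjective (redG (M := M) hNM) := by
  intro g
  obtain ⟨γ, hγ, h⟩ := redM_Gamma0_surj hNM g.1 g.2
  exact ⟨⟨γ, hγ⟩, Subtype.ext h⟩

/-- a homomorphism of `Γ₀(N)` killing `Γ₀(N) ∩ Γ(M)` descends to `Gbar`. -/
theorem exists_barHom (hNM : N ∣ M) {A : Type*} [AddCommGroup A]
    (φ : Additive ↥(Gamma0 N) →+ A)
    (hφ : ∀ γ : ↥(Gamma0 N), (γ : SL(2, ℤ)) ∈ Gamma M → φ (Additive.ofMul γ) = 0) :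
    ∃ φbar : ↥(Gbar hNM) →* Multiplicative A,
      ∀ γ : ↥(Gamma0 N), Multiplicative.toAdd (φbar (redG hNM γ)) = φ (Additive.ofMul γ) := by
  set φ' : ↥(Gamma0 N) →* Multiplicative A := AddMonoidHom.toMultiplicative φ with hφ'
  have hker : (redG (M := M) hNM).ker ≤ φ'.ker := by
    intro γ hγ
    rw [MonoidHom.mem_ker] at hγ ⊢
    have h1 : redM M (γ : SL(2, ℤ)) = 1 := by
      have := congrArg (Subtype.val) hγ
      simpa using this
    have h2 := hφ γ ((redM_eq_one_iff _).1 h1)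
    show Multiplicative.ofAdd (φ (Additive.ofMul γ)) = 1
    rw [h2]; rfl
  refine ⟨(redG (M := M) hNM).liftOfSurjective (redG_surjective hNM) ⟨φ', hker⟩, fun γ => ?_⟩
  rw [MonoidHom.liftOfRightInverse_comp_apply]
  rfl

end Fermat.Agent.S41.EisStrict32
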