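/-
S41 / C5 [EIS-STRICT] (helper32): the transfer computation at finite level.
For integer representatives `a i` (`i : ι`) which are `≡ ḡ_i · diag(1, ℓ) mod M` with `ḡ_i ∈ Gbar`
(e.g. the standard `[[1, j],[0, ℓ]]`, `[[ℓ, 0],[0, 1]]`), any witnesses `a i · γ = c i · a (σ i)` of the
double-coset action, and any `φ : Γ₀(N) → A` (`A` an `𝔽_p`-vector space, `p ∣ M`, `N ∣ M`) killing
`Γ₀(N) ∩ Γ(M)`:  `∑ i, φ (c i) = (card ι) • φ^s(γ)`, and `= (ℓ + 1) • φ γ` when `card ι = ℓ + 1`.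
-/
import Fermat.Agent.S41.EisStrict32.Lift

set_option autoImplicit false
set_option linter.unusedSimpArgs false
set_option linter.deprecated false
set_option linter.unusedSectionVars false

open Matrix CongruenceSubgroup
open scoped MatrixGroups

namespace Fermat.Agent.S41.EisStrict32

variable {M N : ℕ}

/-- `diag(1, v)` as a matrix over `ℤ/M` -/
def Dmat (v : (ZMod M)ˣ) : Matrix (Fin 2) (Fin 2) (ZMod M) := !![1, 0; 0, (v : ZMod M)]

/-- `diag(1, v⁻¹)` -/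
def DmatInv (v : (ZMod M)ˣ) : Matrix (Fin 2) (Fin 2) (ZMod M) :=
  !![1, 0; 0, ((v⁻¹ : (ZMod M)ˣ) : ZMod M)]

lemma Dmat_mul_DmatInv (v : (ZMod M)ˣ) : Dmat v * DmatInv v = 1 := by
  ext i j
  fin_cases i <;> fin_cases j <;> simp [Dmat, DmatInv, Matrix.mul_apply, Fin.sum_univ_two]

/-- `diag(1,v) · g = conj(g) · diag(1,v)` -/
lemma Dmat_mul (v : (ZMod M)ˣ) (g : SLM M) :
    Dmat v * (g : Matrix (Fin 2) (Fin 2) (ZMod M)) =
      (conjD v g : Matrix (Fin 2) (Fin 2) (ZMod M)) * Dmat v := by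
  have hv : ((v⁻¹ : (ZMod M)ˣ) : ZMod M) * (v : ZMod M) = 1 := by simp
  ext i j
  fin_cases i <;> fin_cases j <;>
    simp [Dmat, Matrix.mul_apply, Fin.sum_univ_two, conjD_apply, conjFun, mul_assoc, hv] <;>
    ring

/-- the integer matrix `[[1, j],[0, ℓ]]` is `u_{j/ℓ} · diag(1, ℓ)` mod `M` -/
lemma rep_upper (v : (ZMod M)ˣ) (ℓ : ℕ) (hv : (v : ZMod M) = (ℓ : ZMod M)) (j : ℤ) :
    (!![(1 : ℤ), j; 0, (ℓ : ℤ)]).map (Int.cast : ℤ → ZMod M) =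
      (uB ((j : ZMod M) * ((v⁻¹ : (ZMod M)ˣ) : ZMod M)) : Matrix (Fin 2) (Fin 2) (ZMod M)) *
        Dmat v := by
  have hv' : ((v⁻¹ : (ZMod M)ˣ) : ZMod M) * (v : ZMod M) = 1 := by simp
  ext i k
  fin_cases i <;> fin_cases k <;>
    simp [Dmat, uB, Matrix.mul_apply, Fin.sum_univ_two, mul_assoc, hv', hv.symm]

/-- the integer matrix `[[ℓ, 0],[0, 1]]` is `d_ℓ · diag(1, ℓ)` mod `M` -/
lemma rep_diag (v : (ZMod M)ˣ) (ℓ : ℕ) (hv : (v : ZMod M) = (ℓ : ZMod M)) :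
    (!![(ℓ : ℤ), 0; 0, (1 : ℤ)]).map (Int.cast : ℤ → ZMod M) =
      (dA v : Matrix (Fin 2) (Fin 2) (ZMod M)) * Dmat v := by
  have hv' : ((v⁻¹ : (ZMod M)ˣ) : ZMod M) * (v : ZMod M) = 1 := by simp
  ext i k
  fin_cases i <;> fin_cases k <;>
    simp [Dmat, dA, Matrix.mul_apply, Fin.sum_univ_two, hv', hv.symm]

lemma redM_coe (γ : SL(2, ℤ)) :
    ((redM M γ : SLM M) : Matrix (Fin 2) (Fin 2) (ZMod M)) =
      (γ : Matrix (Fin 2) (Fin 2) ℤ).map (Int.cast : ℤ → ZMod M) := by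
  ext i j
  rfl

variable [NeZero M] {p : ℕ} [Fact p.Prime]

/-- **the transfer sum at finite level** -/
theorem sum_eq_card_smul (hNM : N ∣ M) (hpM : p ∣ M) {A : Type*} [AddCommGroup A]
    [Module (ZMod p) A] (φ : Additive ↥(Gamma0 N) →+ A)
    (hφ : ∀ γ : ↥(Gamma0 N), (γ : SL(2, ℤ)) ∈ Gamma M → φ (Additive.ofMul γ) = 0)
    (v : (ZMod M)ˣ) (ℓ : ℕ) (hv : (v : ZMod M) = (ℓ : ZMod M))
    {ι : Type*} [Fintype ι] (a : ι → Matrix (Fin 2) (Fin 2) ℤ)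
    (ha : ∀ i, ∃ g ∈ Gbar hNM, (a i).map (Int.cast : ℤ → ZMod M) =
      (g : Matrix (Fin 2) (Fin 2) (ZMod M)) * Dmat v)
    (γ : ↥(Gamma0 N)) (σ : ι ≃ ι) (c : ι → ↥(Gamma0 N))
    (h : ∀ i, a i * ((γ : SL(2, ℤ)) : Matrix (Fin 2) (Fin 2) ℤ) =
      ((c i : SL(2, ℤ)) : Matrix (Fin 2) (Fin 2) ℤ) * a (σ i))
    (hcard : Fintype.card ι = ℓ + 1) :
    ∑ i, φ (Additive.ofMul (c i)) = (ℓ + 1) • φ (Additive.ofMul γ) := by
  classical
  obtain ⟨φbar, hφbar⟩ := exists_barHom (M := M) hNM φ hφ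
  choose g hg hga using ha
  -- the key relation in `Gbar`
  have hrel : ∀ i, redG hNM (c i) * ⟨g (σ i), hg (σ i)⟩ =
      ⟨g i, hg i⟩ * conjD' hNM v (redG hNM γ) := by
    intro i
    apply Subtype.ext
    apply Subtype.ext
    show ((redM M (c i : SL(2, ℤ)) : SLM M) : Matrix (Fin 2) (Fin 2) (ZMod M)) *
        (g (σ i) : Matrix (Fin 2) (Fin 2) (ZMod M)) =
      (g i : Matrix (Fin 2) (Fin 2) (ZMod M)) *
        (conjD v (redM M (γ : SL(2, ℤ))) : Matrix (Fin 2) (Fin 2) (ZMod M))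
    have h1 := congrArg (fun X : Matrix (Fin 2) (Fin 2) ℤ => X.map (Int.cast : ℤ → ZMod M)) (h i)
    simp only [Matrix.map_mul_intCast] at h1
    rw [hga i, hga (σ i), ← redM_coe, ← redM_coe, Matrix.mul_assoc, Dmat_mul, ← Matrix.mul_assoc,
      ← Matrix.mul_assoc] at h1
    have h2 := congrArg (fun X => X * DmatInv v) h1
    simp only [Matrix.mul_assoc, Dmat_mul_DmatInv, Matrix.mul_one] at h2
    exact h2.symm
  have hterm : ∀ i, φ (Additive.ofMul (c i)) =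
      Φ φbar ⟨g i, hg i⟩ + Φ φbar (conjD' hNM v (redG hNM γ)) - Φ φbar ⟨g (σ i), hg (σ i)⟩ := by
    intro i
    have h1 : Φ φbar (redG hNM (c i) * ⟨g (σ i), hg (σ i)⟩) =
        Φ φbar (⟨g i, hg i⟩ * conjD' hNM v (redG hNM γ)) := by rw [hrel i]
    rw [Φ_mul, Φ_mul] at h1
    have h2 : Φ φbar (redG hNM (c i)) = φ (Additive.ofMul (c i)) := hφbar (c i)
    rw [← h2]
    rw [eq_sub_iff_add_eq]
    exact h1
  have hsum : ∑ i, Φ φbar ⟨g (σ i), hg (σ i)⟩ = ∑ i, Φ φbar ⟨g i, hg i⟩ :=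
    Equiv.sum_comp σ (fun i => Φ φbar ⟨g i, hg i⟩)
  calc ∑ i, φ (Additive.ofMul (c i))
      = ∑ i, (Φ φbar ⟨g i, hg i⟩ + Φ φbar (conjD' hNM v (redG hNM γ)) -
          Φ φbar ⟨g (σ i), hg (σ i)⟩) := Finset.sum_congr rfl (fun i _ => hterm i)
    _ = (ℓ + 1) • Φ φbar (conjD' hNM v (redG hNM γ)) := by
        rw [Finset.sum_sub_distrib, Finset.sum_add_distrib, hsum, add_sub_cancel_left,
          Finset.sum_const, Finset.card_univ, hcard]
    _ = (ℓ + 1) • Φ φbar (redG hNM γ) := by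
        have hm := main hpM φbar v ℓ hv (redG hNM γ)
        rw [smul_sub, sub_eq_zero] at hm
        have e : ∀ x : A, (ℓ + 1) • x = ((ℓ : ZMod p) + 1) • x := by
          intro x
          rw [← Nat.cast_smul_eq_nsmul (ZMod p) (ℓ + 1) x]
          congr 1
          push_cast
          ring
        rw [e, e, hm]
    _ = (ℓ + 1) • φ (Additive.ofMul γ) := by rw [show Φ φbar (redG hNM γ) = _ from hφbar γ]

end Fermat.Agent.S41.EisStrict32
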