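/-
S41 / C5 [EIS-STRICT] (helper32): the final statement in helper15's API (`Hecke15.TX`).
For a prime `ℓ ∤ M' · N · p` and any `φ : Γ₀(N) → A` (`A` an `𝔽_p`-vector space) killing
`Γ₀(N) ∩ Γ(M')`:  `TX N A ℓ φ = (ℓ + 1) • φ`;  plus the `ℤ`-valued divisibility form consumed by
`Ihara73.EisStrictPlug`.
-/
import Fermat.Agent.S41.EisStrict32.Transfer
import Fermat.Agent.S41.Hecke15.Gamma0

set_option autoImplicit false
set_option linter.unusedSimpArgs false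
set_option linter.deprecated false
set_option linter.unusedSectionVars false

open Matrix CongruenceSubgroup
open scoped MatrixGroups
open Fermat.Agent.S16.HeckeHom24 Fermat.Agent.S41.Hecke15

namespace Fermat.Agent.S41.EisStrict32

variable {M N : ℕ}

/-- the integer representatives of `T_ℓ` are `≡ ḡ · diag(1, ℓ)` mod `M` with `ḡ ∈ Gbar` -/
lemma tMat_rep (hNM : N ∣ M) (v : (ZMod M)ˣ) (ℓ : ℕ) (hv : (v : ZMod M) = (ℓ : ZMod M))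
    (i : Option (Fin ℓ)) :
    ∃ g ∈ Gbar hNM, (tMat ℓ i).map (Int.cast : ℤ → ZMod M) =
      (g : Matrix (Fin 2) (Fin 2) (ZMod M)) * Dmat v := by
  rcases i with _ | j
  · exact ⟨dA v, dA_mem hNM v, rep_diag v ℓ hv⟩
  · exact ⟨uB _, uB_mem hNM _, rep_upper v ℓ hv ((j : ℕ) : ℤ)⟩

lemma Gamma_le_of_dvd {M' : ℕ} (h : M' ∣ M) {γ : SL(2, ℤ)} (hγ : γ ∈ Gamma M) : γ ∈ Gamma M' := by
  rw [Gamma_mem] at hγ ⊢
  obtain ⟨h00, h01, h10, h11⟩ := hγ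
  have key : ∀ (z : ℤ) (w : ℤ), ((z : ℤ) : ZMod M) = (w : ZMod M) →
      ((z : ℤ) : ZMod M') = (w : ZMod M') := by
    intro z w hzw
    have := congrArg (ZMod.castHom h (ZMod M')) hzw
    simpa using this
  refine ⟨?_, ?_, ?_, ?_⟩
  · simpa using key (γ 0 0) 1 (by simpa using h00)
  · simpa using key (γ 0 1) 0 (by simpa using h01)
  · simpa using key (γ 1 0) 0 (by simpa using h10)
  · simpa using key (γ 1 1) 1 (by simpa using h11)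

variable [NeZero N] {p : ℕ} [Fact p.Prime]

/-- **[EIS-STRICT] at level `M`** (`N ∣ M`, `p ∣ M`, `ℓ ∤ M` prime). -/
theorem TX_eq_smul_of_level [NeZero M] (hNM : N ∣ M) (hpM : p ∣ M) {A : Type*} [AddCommGroup A]
    [Module (ZMod p) A] {ℓ : ℕ} (hℓ : ℓ.Prime) (hℓM : ¬ ℓ ∣ M)
    (φ : Additive ↥(Gamma0 N) →+ A)
    (hφ : ∀ γ : ↥(Gamma0 N), (γ : SL(2, ℤ)) ∈ Gamma M → φ (Additive.ofMul γ) = 0) :
    TX N A ℓ φ = (ℓ + 1) • φ := by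
  have hℓN : ¬ ℓ ∣ N := fun h => hℓM (h.trans hNM)
  have hcop : Nat.Coprime ℓ M := (Nat.Prime.coprime_iff_not_dvd hℓ).mpr hℓM
  rw [TX_eq_heckeTHom hℓ hℓN]
  refine AddMonoidHom.ext fun γ => ?_
  obtain ⟨γ, rfl⟩ := Additive.ofMul.surjective γ
  rw [heckeTHom_apply, AddMonoidHom.nsmul_apply]
  exact sum_eq_card_smul hNM hpM φ hφ (ZMod.unitOfCoprime ℓ hcop) ℓ (ZMod.coe_unitOfCoprime ℓ hcop)
    (tMat ℓ) (tMat_rep hNM _ ℓ (ZMod.coe_unitOfCoprime ℓ hcop)) γ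
    ((tSys N hℓ hℓN).permEquiv γ) ((tSys N hℓ hℓN).elt γ)
    (fun i => tSys_rel_int N hℓ hℓN γ i) (by simp)

/-- **[EIS-STRICT]**: a class `φ : Γ₀(N) → A` (`A` an `𝔽_p`-vector space) trivial on
`Γ₀(N) ∩ Γ(M')` is strictly Eisenstein: `T_ℓ φ = (ℓ + 1) φ` for every prime `ℓ ∤ M' N p`. -/
theorem TX_eq_smul {A : Type*} [AddCommGroup A] [Module (ZMod p) A] (M' : ℕ) (hM' : 0 < M')
    {ℓ : ℕ} (hℓ : ℓ.Prime) (hℓM : ¬ ℓ ∣ M' * N * p) (φ : Additive ↥(Gamma0 N) →+ A)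
    (hφ : ∀ γ : ↥(Gamma0 N), (γ : SL(2, ℤ)) ∈ Gamma M' → φ (Additive.ofMul γ) = 0) :
    TX N A ℓ φ = (ℓ + 1) • φ := by
  have hp : p ≠ 0 := (Fact.out : p.Prime).ne_zero
  have : NeZero (M' * N * p) := ⟨Nat.mul_ne_zero (Nat.mul_ne_zero hM'.ne' (NeZero.ne N)) hp⟩
  have hNM : N ∣ M' * N * p := ⟨M' * p, by ring⟩
  have hpM : p ∣ M' * N * p := ⟨M' * N, by ring⟩
  have hM'M : M' ∣ M' * N * p := ⟨N * p, by ring⟩
  refine TX_eq_smul_of_level (M := M' * N * p) (p := p) hNM hpM hℓ hℓM φ ?_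
  intro γ hγ
  exact hφ γ (Gamma_le_of_dvd hM'M hγ)

/-- **[EIS-STRICT], `ℤ`-lattice form** (the shape of `Ihara73.EisStrictPlug`): if `p ∣ x(g)` for all
`g ∈ Γ₀(N) ∩ Γ(M')` then `p ∣ (T_ℓ x)(g) − (ℓ + 1) x(g)` for all `g`, `ℓ ∤ M' N p` prime. -/
theorem TX_int_dvd (M' : ℕ) (hM' : 0 < M') {ℓ : ℕ} (hℓ : ℓ.Prime) (hℓM : ¬ ℓ ∣ M' * N * p)
    (x : Additive ↥(Gamma0 N) →+ ℤ)
    (hx : ∀ g : ↥(Gamma0 N), (g : SL(2, ℤ)) ∈ Gamma M' → (p : ℤ) ∣ x (Additive.ofMul g))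
    (g : ↥(Gamma0 N)) :
    (p : ℤ) ∣ (TX N ℤ ℓ x) (Additive.ofMul g) - ((ℓ : ℤ) + 1) * x (Additive.ofMul g) := by
  have h1 := TX_eq_smul (p := p) (A := ZMod p) M' hM' hℓ hℓM ((Int.castAddHom (ZMod p)).comp x)
    (fun γ hγ => by
      rw [AddMonoidHom.comp_apply, Int.coe_castAddHom]
      exact (ZMod.intCast_zmod_eq_zero_iff_dvd _ _).mpr (hx γ hγ))
  rw [← TX_map] at h1
  have h2 := congrArg (fun f : Additive ↥(Gamma0 N) →+ ZMod p => f (Additive.ofMul g)) h1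
  simp only [AddMonoidHom.comp_apply, Int.coe_castAddHom, AddMonoidHom.nsmul_apply] at h2
  rw [← ZMod.intCast_zmod_eq_zero_iff_dvd]
  push_cast
  rw [h2]
  simp [nsmul_eq_mul]

/-- the finite exceptional set of `Ihara73.EisStrictPlug` -/
theorem TX_int_dvd_finset (M' : ℕ) (hM' : 0 < M') :
    ∃ B : Finset ℕ, ∀ ℓ : ℕ, ℓ.Prime → ℓ ∉ B → ∀ x : Additive ↥(Gamma0 N) →+ ℤ,
      (∀ g : ↥(Gamma0 N), (g : SL(2, ℤ)) ∈ Gamma M' → (p : ℤ) ∣ x (Additive.ofMul g)) →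
      ∀ g : ↥(Gamma0 N),
        (p : ℤ) ∣ (TX N ℤ ℓ x) (Additive.ofMul g) - ((ℓ : ℤ) + 1) * x (Additive.ofMul g) := by
  have hp : p ≠ 0 := (Fact.out : p.Prime).ne_zero
  refine ⟨(M' * N * p).primeFactors, fun ℓ hℓ hℓB x hx g => TX_int_dvd M' hM' hℓ ?_ x hx g⟩
  intro hdvd
  exact hℓB (Nat.mem_primeFactors.mpr
    ⟨hℓ, hdvd, Nat.mul_ne_zero (Nat.mul_ne_zero hM'.ne' (NeZero.ne N)) hp⟩)

end Fermat.Agent.S41.EisStrict32
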