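/-
S41 / C5 [EIS-STRICT] (helper32): discharge of the consumer plug `Ihara73.EisStrictPlug` for
helper15's operators `TX N ℤ ℓ`.
-/
import Fermat.Agent.S41.EisStrict32.Glue
import Fermat.Agent.S41.Ihara73.Core

set_option autoImplicit false

open CongruenceSubgroup
open scoped MatrixGroups
open Fermat.Agent.S41.Hecke15

namespace Fermat.Agent.S41.EisStrict32

/-- **[EIS-STRICT] closes `Ihara73.EisStrictPlug`** for `T ℓ := TX N ℤ ℓ`, any prime `p`. -/
theorem eisStrictPlug (N p : ℕ) [NeZero N] [Fact p.Prime] :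
    Fermat.Agent.S41.Ihara73.EisStrictPlug N p (fun ℓ => TX N ℤ ℓ) :=
  fun M hM => TX_int_dvd_finset (N := N) (p := p) M hM

end Fermat.Agent.S41.EisStrict32
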